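import Fermat.Agent.EC.Torsion.GenericMultiples
import Mathlib.FieldTheory.IsAlgClosed.AlgebraicClosure
import Mathlib.RingTheory.MvPolynomial.Basic
import Mathlib.RingTheory.Localization.FractionRing
import Mathlib.Data.Int.Interval

/-!
# The multiplication formula

For an elliptic curve over any field and an affine point `P = (x, y)`, the pair
`(Φₙ(x), ΨSqₙ(x))` is nonzero and represents `x(nP)` on the projective line.
-/

set_option autoImplicit false

namespace Fermat.Agent.EC.Torsion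

open WeierstrassCurve Polynomial

section Ring

variable {R S : Type*} [CommRing R] [CommRing S] (f : R →+* S)

lemma map_asub (W : WeierstrassCurve R) (s : Fin 3 → R) :
    f ∘ asub W s = asub (W.map f) (f ∘ s) := by
  funext i
  fin_cases i <;> simp [asub, map_ofNat]

lemma map_sym2v (u v : Fin 2 → R) : f ∘ sym2v u v = sym2v (f ∘ u) (f ∘ v) := by
  funext i
  fin_cases i <;> simp [sym2v]

/-- The pair representing `x(n•P)` on the projective line. -/
noncomputable def mulRep (W : WeierstrassCurve R) (n : ℤ) : Fin 2 → R[X] :=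
  ![W.Φ n, W.ΨSq n]

/-- The recursion satisfied by the pairs `(Φₙ, ΨSqₙ)`. -/
def MulRel (W : WeierstrassCurve R) (n : ℤ) : Prop :=
  asub (W.map C) (sym2v (mulRep W n) ![X, 1]) = sym2v (mulRep W (n + 1)) (mulRep W (n - 1))

lemma MulRel.map {W : WeierstrassCurve R} {n : ℤ} (h : MulRel W n) : MulRel (W.map f) n := by
  have := congrArg (mapRingHom f ∘ ·) h
  simp only [map_asub, map_sym2v, WeierstrassCurve.map_map] at this
  have hC : (mapRingHom f).comp C = (C : S →+* S[X]).comp f := by ext r; simp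
  have hm : ∀ k, mapRingHom f ∘ mulRep W k = mulRep (W.map f) k := fun k => by
    funext i
    fin_cases i <;> simp [mulRep]
  have hx : mapRingHom f ∘ ![(X : R[X]), 1] = ![X, 1] := by
    funext i
    fin_cases i <;> simp
  rwa [hC, ← WeierstrassCurve.map_map, hm, hm, hm, hx] at this

lemma MulRel.of_map {W : WeierstrassCurve R} {n : ℤ} (hf : Function.Injective f)
    (h : MulRel (W.map f) n) : MulRel W n := by
  have hC : (mapRingHom f).comp C = (C : S →+* S[X]).comp f := by ext r; simp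
  have hm : ∀ k, mapRingHom f ∘ mulRep W k = mulRep (W.map f) k := fun k => by
    funext i
    fin_cases i <;> simp [mulRep]
  have hx : mapRingHom f ∘ ![(X : R[X]), 1] = ![X, 1] := by
    funext i
    fin_cases i <;> simp
  funext i
  apply Polynomial.map_injective f hf
  have h1 := congrFun (map_asub (mapRingHom f) (W.map C) (sym2v (mulRep W n) ![X, 1])) i
  have h2 := congrFun (map_sym2v (mapRingHom f) (mulRep W (n + 1)) (mulRep W (n - 1))) i
  simp only [WeierstrassCurve.map_map, Function.comp_apply, coe_mapRingHom] at h1 h2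
  rw [h1, h2, ← coe_mapRingHom, hC, ← WeierstrassCurve.map_map, map_sym2v, hm, hm, hm, hx]
  exact congrFun h i

lemma eval_comp_map_C (W : WeierstrassCurve R) (x : R) :
    (W.map C).map (evalRingHom x) = W := by
  ext <;> simp

lemma eval_mulRel_sides (W : WeierstrassCurve R) (n : ℤ) (x : R) :
    (evalRingHom x ∘ asub (W.map C) (sym2v (mulRep W n) ![X, 1]) =
      asub W (sym2v ![(W.Φ n).eval x, (W.ΨSq n).eval x] ![x, 1])) ∧
    (evalRingHom x ∘ sym2v (mulRep W (n + 1)) (mulRep W (n - 1)) =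
      sym2v ![(W.Φ (n + 1)).eval x, (W.ΨSq (n + 1)).eval x]
        ![(W.Φ (n - 1)).eval x, (W.ΨSq (n - 1)).eval x]) := by
  have hm : ∀ k, evalRingHom x ∘ mulRep W k = ![(W.Φ k).eval x, (W.ΨSq k).eval x] := fun k => by
    funext i
    fin_cases i <;> simp [mulRep]
  have hx : evalRingHom x ∘ ![(X : R[X]), 1] = ![x, 1] := by
    funext i
    fin_cases i <;> simp
  simp only [map_asub, map_sym2v, eval_comp_map_C, hm, hx, and_self]

lemma mulRel_one (W : WeierstrassCurve R) : MulRel W 1 := by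
  funext i
  fin_cases i <;> simp [asub, sym2v, mulRep, WeierstrassCurve.Ψ₂Sq, map_ofNat] <;> ring

end Ring

lemma exists_equation {K : Type*} [Field K] [IsAlgClosed K] (W : Affine K) (x : K) :
    ∃ y, W.Equation x y := by
  obtain ⟨y, hy⟩ := IsAlgClosed.exists_root
    (X ^ 2 + C (W.a₁ * x + W.a₃) * X - C (x ^ 3 + W.a₂ * x ^ 2 + W.a₄ * x + W.a₆) : K[X])
    (by
      have : (X ^ 2 + C (W.a₁ * x + W.a₃) * X
          - C (x ^ 3 + W.a₂ * x ^ 2 + W.a₄ * x + W.a₆) : K[X]).natDegree = 2 := by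
        compute_degree!
      intro h
      rw [natDegree_eq_of_degree_eq_some h] at this
      simp at this)
  refine ⟨y, ?_⟩
  rw [Affine.equation_iff]
  simp [IsRoot] at hy
  linear_combination hy

private lemma mulRel_of_isAlgClosed {K : Type*} [Field K] [IsAlgClosed K] [CharZero K]
    (W : Affine K) [W.IsElliptic] {n : ℤ} (hn : 2 ≤ n) : MulRel W n := by
  classical
  have hbad : (⋃ k ∈ Finset.Icc 1 (n + 2), {x : K | (W.ΨSq k).eval x = 0}).Finite := by
    refine Set.Finite.biUnion (Finset.Icc 1 (n + 2)).finite_toSet fun k hk => ?_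
    have hk' := Finset.mem_Icc.mp hk
    exact finite_setOfPred_isRoot (W.ΨSq_ne_zero (by exact_mod_cast (show k ≠ 0 by omega)))
  funext i
  refine eq_of_infinite_eval_eq _ _ (hbad.infinite_compl.mono fun x hx => ?_)
  simp only [Set.mem_compl_iff, Set.mem_iUnion, Finset.mem_Icc, not_exists] at hx
  obtain ⟨y, hy⟩ := exists_equation W x
  have h : W.Nonsingular x y := Affine.equation_iff_nonsingular.mp hy
  have hv : ∀ k, 1 ≤ k → k ≤ n + 1 + 1 → divVal W x y k ≠ 0 := fun k h1 h2 h0 =>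
    hx k ⟨h1, by omega⟩ (by rw [Set.mem_ofPred_eq, ← divVal_sq hy, h0]; ring)
  obtain ⟨ya, ha, ea⟩ := zsmul_eq_some_of_divVal_ne_zero h (n + 1) hv n (by omega) (by omega)
  obtain ⟨ys, hs, es⟩ := zsmul_eq_some_of_divVal_ne_zero h (n + 1) hv (n + 1) (by omega) le_rfl
  obtain ⟨yd, hd, ed⟩ := zsmul_eq_some_of_divVal_ne_zero h (n + 1) hv (n - 1) (by omega) (by omega)
  rw [add_one_zsmul] at es
  rw [sub_one_zsmul, ← sub_eq_add_neg] at ed
  obtain ⟨e1, e0⟩ := symForm_eq ea rfl es ed
  set v := fun k => divVal W x y k with hvdef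
  have hrep : ∀ k, 1 ≤ k → k ≤ n + 2 →
      ![(W.Φ k).eval x, (W.ΨSq k).eval x] = v k ^ 2 • ![xMul W x y k, 1] := by
    intro k h1 h2
    have := hv k h1 (by omega)
    funext j
    fin_cases j
    · simp [eval_Φ_eq hy, xMul, hvdef]
      field_simp
    · simp [hvdef, divVal_sq hy]
  have hvn : v n ≠ 0 := hv n (by omega) (by omega)
  have hd2 : (xMul W x y n - x) ^ 2 * v n ^ 4 = v (n + 1) ^ 2 * v (n - 1) ^ 2 := by
    simp only [xMul, hvdef] at hvn ⊢
    field_simp
    ring
  have key : asub W (sym2v ![(W.Φ n).eval x, (W.ΨSq n).eval x] ![x, 1]) =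
      sym2v ![(W.Φ (n + 1)).eval x, (W.ΨSq (n + 1)).eval x]
        ![(W.Φ (n - 1)).eval x, (W.ΨSq (n - 1)).eval x] := by
    rw [hrep n (by omega) (by omega), hrep (n + 1) (by omega) (by omega),
      hrep (n - 1) (by omega) (by omega), sym2v_smul_left, asub_smul, sym2v_smul_left,
      sym2v_smul_right, smul_smul, ← hd2]
    have es2 : sym2v ![xMul W x y n, 1] ![x, 1] = ![xMul W x y n * x, xMul W x y n + x, 1] := by
      funext j
      fin_cases j <;> simp [sym2v]
    rw [es2]
    funext j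
    fin_cases j
    · simp [sym2v]
      linear_combination -(v n ^ 4) * e0
    · simp [sym2v]
      linear_combination -(v n ^ 4) * e1
    · simp [sym2v, asub]
      ring
  have h1 := (eval_mulRel_sides W n x).1.trans (key.trans (eval_mulRel_sides W n x).2.symm)
  exact congrFun h1 i

/-- The pairs `(Φₙ, ΨSqₙ)` satisfy the addition-subtraction recursion. -/
theorem mulRel {R : Type*} [CommRing R] (W : WeierstrassCurve R) {n : ℤ} (hn : 1 ≤ n) :
    MulRel W n := by
  rcases eq_or_lt_of_le hn with rfl | hn2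
  · exact mulRel_one W
  let U : WeierstrassCurve (MvPolynomial (Fin 5) ℤ) :=
    ⟨.X 0, .X 1, .X 2, .X 3, .X 4⟩
  let φ := MvPolynomial.eval₂Hom (Int.castRingHom R) ![W.a₁, W.a₂, W.a₃, W.a₄, W.a₆]
  have hU : U.map φ = W := by
    ext <;> simp [U, φ]
  let K := AlgebraicClosure (FractionRing (MvPolynomial (Fin 5) ℤ))
  let ι : MvPolynomial (Fin 5) ℤ →+* K :=
    (algebraMap (FractionRing (MvPolynomial (Fin 5) ℤ)) K).comp (algebraMap _ _)
  have hι : Function.Injective ι :=
    (algebraMap (FractionRing (MvPolynomial (Fin 5) ℤ)) K).injective.comp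
      (IsFractionRing.injective _ _)
  have : CharZero K := charZero_of_injective_ringHom (f := ι.comp (MvPolynomial.C))
    (hι.comp (MvPolynomial.C_injective _ _))
  have : (U.map ι).IsElliptic := by
    refine ⟨isUnit_iff_ne_zero.mpr ?_⟩
    rw [WeierstrassCurve.map_Δ, map_ne_zero_iff ι hι]
    intro h0
    have := congrArg (MvPolynomial.eval (![0, 0, 1, 0, 0] : Fin 5 → ℤ)) h0
    rw [← WeierstrassCurve.map_Δ] at this
    simp [U, WeierstrassCurve.Δ, WeierstrassCurve.b₂, WeierstrassCurve.b₄,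
      WeierstrassCurve.b₆, WeierstrassCurve.b₈] at this
  rw [← hU]
  exact ((mulRel_of_isAlgClosed (U.map ι) (by omega)).of_map ι hι).map φ

section Field

variable {K : Type*} [Field K] [DecidableEq K] (W : Affine K) [W.IsElliptic]

/-- **Multiplication formula**: `(Φₙ(x) : ΨSqₙ(x))` is the `x`-coordinate of `n • (x, y)`. -/
theorem exists_smul_xRep {x y : K} (h : W.Nonsingular x y) (n : ℕ) :
    ∃ c : K, c ≠ 0 ∧
      ![(W.Φ n).eval x, (W.ΨSq n).eval x] = c • (n • Affine.Point.some x y h).xRep := by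
  induction n using Nat.twoStepInduction with
  | zero => exact ⟨1, one_ne_zero, by simp⟩
  | one => exact ⟨1, one_ne_zero, by simp⟩
  | more n ih1 ih2 =>
    set P := Affine.Point.some x y h with hP
    set A := (n + 1) • P with hA
    obtain ⟨c₁, hc₁, e₁⟩ := ih1
    obtain ⟨c₂, hc₂, e₂⟩ := ih2
    obtain ⟨c, hc, e⟩ := exists_asub_sym2x W A P
    have hsum : A + P = (n + 2) • P := (succ_nsmul P (n + 1)).symm
    have hdiff : A - P = n • P := by rw [hA, succ_nsmul, add_sub_cancel_right]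
    rw [hsum, hdiff, ← sym2v_xRep, ← sym2v_xRep] at e
    have r := congrArg (evalRingHom x ∘ ·) (mulRel (R := K) W (n := ((n + 1 : ℕ) : ℤ)) (by omega))
    simp only [(eval_mulRel_sides W _ x).1, (eval_mulRel_sides W _ x).2] at r
    rw [show ((n + 1 : ℕ) : ℤ) + 1 = ((n + 2 : ℕ) : ℤ) by push_cast; ring,
      show ((n + 1 : ℕ) : ℤ) - 1 = (n : ℤ) by push_cast; ring, e₁, e₂,
      sym2v_smul_left, asub_smul, sym2v_smul_right,
      show sym2v A.xRep ![x, 1] = sym2v A.xRep P.xRep from rfl, e, smul_smul] at r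
    refine ⟨c₂ ^ 2 * c / c₁, by simp [hc, hc₁, hc₂], eq_of_sym2v_eq
      (Affine.Point.xRep_ne_zero (n • P)) ?_⟩
    rw [sym2v_smul_left, div_eq_inv_mul, mul_smul, r, smul_smul, inv_mul_cancel₀ hc₁, one_smul]

theorem nsmul_some_eq_zero_iff {x y : K} (h : W.Nonsingular x y) (n : ℕ) :
    n • Affine.Point.some x y h = 0 ↔ (W.ΨSq n).eval x = 0 := by
  obtain ⟨c, hc, e⟩ := exists_smul_xRep W h n
  have e1 := congrFun e 1
  rcases hQ : n • Affine.Point.some x y h with _ | ⟨x₁, y₁, h₁⟩
  · rw [hQ] at e1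
    simpa [Affine.Point.xRep, ← Affine.Point.zero_def] using e1
  · rw [hQ, Affine.Point.xRep_some] at e1
    simp [-ΨSq_ofNat] at e1
    simp [e1, hc, -ΨSq_ofNat]

theorem eval_Φ_eq_mul_of_nsmul_eq_some {x y x₁ y₁ : K} {h : W.Nonsingular x y}
    {h₁ : W.Nonsingular x₁ y₁} {n : ℕ}
    (hQ : n • Affine.Point.some x y h = .some x₁ y₁ h₁) :
    (W.Φ n).eval x = x₁ * (W.ΨSq n).eval x := by
  obtain ⟨c, -, e⟩ := exists_smul_xRep W h n
  rw [hQ, Affine.Point.xRep_some] at e
  have e0 := congrFun e 0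
  have e1 := congrFun e 1
  simp [-ΨSq_ofNat] at e0 e1
  rw [e0, e1, mul_comm]

theorem eval_Φ_ne_zero_or_eval_ΨSq_ne_zero {x y : K} (h : W.Equation x y) (n : ℕ) :
    (W.Φ n).eval x ≠ 0 ∨ (W.ΨSq n).eval x ≠ 0 := by
  obtain ⟨c, hc, e⟩ := exists_smul_xRep W (Affine.equation_iff_nonsingular.mp h) n
  by_contra! h0
  refine smul_ne_zero hc (Affine.Point.xRep_ne_zero _) (e.symm.trans ?_)
  funext i
  fin_cases i <;> simp [h0, -ΨSq_ofNat]

end Field

end Fermat.Agent.EC.Torsion
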