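import Fermat.Agent.EC.Torsion.Multiplication
import Mathlib.Algebra.Module.Torsion.Basic
import Mathlib.Algebra.Module.ZMod
import Mathlib.FieldTheory.Finiteness
import Mathlib.Algebra.Field.ZMod

/-!
# The number of `n`-torsion points

Over an algebraically closed field, `x ↦ Φₙ(x) - c ΨSqₙ(x)` has `n²` simple roots for all but
finitely many `c` when `n ≠ 0` in the field, as the Wronskian of `Φₙ` and `ΨSqₙ` has leading
coefficient `n²`. Hence a general fibre of multiplication by `n` has `n²` points.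
-/

set_option autoImplicit false

namespace Fermat.Agent.EC.Torsion

open WeierstrassCurve Polynomial

variable {K : Type*} [Field K] (W : Affine K)

/-- The polynomial cutting out the `x`-coordinates of the fibre over a point with `x = c`. -/
noncomputable def fibrePoly (n : ℕ) (c : K) : K[X] :=
  W.Φ n - C c * W.ΨSq n

lemma fibrePoly_monic_natDegree {n : ℕ} (hn : n ≠ 0) (c : K) :
    (fibrePoly W n c).Monic ∧ (fibrePoly W n c).natDegree = n ^ 2 := by
  have hlt : (C c * W.ΨSq n).natDegree < n ^ 2 := by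
    refine lt_of_le_of_lt ((natDegree_C_mul_le _ _).trans (W.natDegree_ΨSq_le n)) ?_
    simp only [Int.natAbs_natCast]
    exact Nat.sub_lt (by positivity) one_pos
  have hΦ : (W.Φ (n : ℤ)).natDegree = n ^ 2 := by rw [natDegree_Φ, Int.natAbs_natCast]
  have hd : (fibrePoly W n c).natDegree = n ^ 2 := by
    rw [fibrePoly, natDegree_sub_eq_left_of_natDegree_lt (hΦ.symm ▸ hlt), hΦ]
  refine ⟨?_, hd⟩
  rw [Monic, leadingCoeff, hd, fibrePoly, coeff_sub, coeff_eq_zero_of_natDegree_lt hlt, sub_zero]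
  simpa using W.coeff_Φ n

lemma wronskian_Φ_ΨSq_ne_zero {n : ℕ} (hn : (n : K) ≠ 0) :
    derivative (W.Φ n) * W.ΨSq n - W.Φ n * derivative (W.ΨSq n) ≠ 0 := by
  have hn0 : n ≠ 0 := by rintro rfl; exact hn Nat.cast_zero
  rcases Nat.lt_or_ge n 2 with h1 | h2
  · obtain rfl : n = 1 := by omega
    simp
  · obtain ⟨d, hd⟩ : ∃ d, n ^ 2 = d + 2 := Nat.exists_eq_add_of_le' (by nlinarith)
    have a : (W.Φ (n : ℤ)).natDegree ≤ d + 2 := by
      simp [hd]
    have b : (W.ΨSq (n : ℤ)).natDegree ≤ d + 1 := by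
      simpa [hd, -ΨSq_ofNat] using W.natDegree_ΨSq_le n
    have a' : (derivative (W.Φ (n : ℤ))).natDegree ≤ d + 1 :=
      (natDegree_derivative_le _).trans (by omega)
    have b' : (derivative (W.ΨSq (n : ℤ))).natDegree ≤ d :=
      (natDegree_derivative_le _).trans (by omega)
    have ca : (W.Φ (n : ℤ)).coeff (d + 2) = 1 := by simpa [hd] using W.coeff_Φ n
    have cb : (W.ΨSq (n : ℤ)).coeff (d + 1) = (n : K) ^ 2 := by
      simpa [hd, -ΨSq_ofNat] using W.coeff_ΨSq n
    intro h0
    have := congrArg (fun p : K[X] => p.coeff (d + 1 + (d + 1))) h0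
    simp only [coeff_sub, coeff_zero] at this
    rw [coeff_mul_add_eq_of_natDegree_le a' b,
      show d + 1 + (d + 1) = (d + 2) + d by ring, coeff_mul_add_eq_of_natDegree_le a b',
      coeff_derivative, coeff_derivative, ca, cb] at this
    push_cast at this
    apply pow_ne_zero 2 hn
    linear_combination this

lemma Ψ₂Sq_ne_zero_of_isElliptic [W.IsElliptic] : W.Ψ₂Sq ≠ 0 := by
  intro h
  have h2 := congrArg (fun p : K[X] => p.coeff 2) h
  have h1 := congrArg (fun p : K[X] => p.coeff 1) h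
  have h0 := congrArg (fun p : K[X] => p.coeff 0) h
  simp [WeierstrassCurve.Ψ₂Sq, coeff_X] at h2 h1 h0
  apply (WeierstrassCurve.isUnit_Δ W).ne_zero
  rw [WeierstrassCurve.Δ, h2, h0]
  rcases h1 with h1 | h1
  · linear_combination -4 * W.b₄ ^ 3 * h1
  · rw [h1]; ring

variable [DecidableEq K] [W.IsElliptic]

theorem finite_setOf_nsmul_eq_zero {n : ℕ} (hn : (n : K) ≠ 0) :
    {P : W.Point | n • P = 0}.Finite := by
  have hΨ : W.ΨSq n ≠ 0 := W.ΨSq_ne_zero (by exact_mod_cast hn)
  have hfib : ∀ v : Fin 2 → K, {P : W.Point | P.xRep = v}.Finite := by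
    intro v
    by_cases he : ∃ Q : W.Point, Q.xRep = v
    · obtain ⟨Q, hQ⟩ := he
      refine (Set.toFinite {Q, -Q}).subset fun P hP => ?_
      rcases Affine.Point.eq_or_eq_neg_of_xRep_eq_xRep (hP.trans hQ.symm) with h | h <;> simp [h]
    · exact Set.finite_empty.subset fun P hP => (he ⟨P, hP⟩).elim
  refine (Set.Finite.subset ((Set.finite_singleton (0 : W.Point)).union
    ((finite_setOfPred_isRoot hΨ).biUnion fun r _ => hfib ![r, 1])) fun P hP => ?_)
  rcases P with _ | ⟨x, y, h⟩
  · exact Or.inl rfl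
  · refine Or.inr (Set.mem_biUnion (x := x) ?_ ?_)
    · exact (nsmul_some_eq_zero_iff W h n).mp hP
    · simp

omit [WeierstrassCurve.IsElliptic W] in
lemma mem_torsionBy_natCast {n : ℕ} {P : W.Point} :
    P ∈ Submodule.torsionBy ℤ W.Point n ↔ n • P = 0 := by
  rw [Submodule.mem_torsionBy_iff, natCast_zsmul]

theorem finite_torsionBy {n : ℕ} (hn : (n : K) ≠ 0) :
    Finite (Submodule.torsionBy ℤ W.Point n) :=
  ((finite_setOf_nsmul_eq_zero W hn).subset fun _ hP =>
    (mem_torsionBy_natCast W).mp hP).to_subtype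

variable [IsAlgClosed K]

/-- A root of `fibrePoly W n c` lifts to a point `P` with `n • P = Q`, for `x(Q) = c`. -/
lemma exists_point_of_isRoot {n : ℕ} {c d r : K} (hQ : W.Nonsingular c d)
    (hr : (fibrePoly W n c).IsRoot r) :
    ∃ y h, n • Affine.Point.some r y h = Affine.Point.some c d hQ := by
  simp [fibrePoly, sub_eq_zero, -ΨSq_ofNat] at hr
  obtain ⟨y, hy⟩ := exists_equation W r
  have h : W.Nonsingular r y := Affine.equation_iff_nonsingular.mp hy
  have hne : (W.ΨSq n).eval r ≠ 0 := fun h0 =>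
    (eval_Φ_ne_zero_or_eval_ΨSq_ne_zero W hy n).elim
      (fun hh => hh (by rw [hr, h0, mul_zero])) (fun hh => hh h0)
  rcases hR : n • Affine.Point.some r y h with _ | ⟨x₁, y₁, h₁⟩
  · exact absurd ((nsmul_some_eq_zero_iff W h n).mp hR) hne
  · have hx : x₁ = c := mul_right_cancel₀ hne ((eval_Φ_eq_mul_of_nsmul_eq_some W hR).symm.trans hr)
    rcases (Affine.Point.X_eq_iff (h₁ := h₁) (h₂ := hQ)).mp hx with e | e
    · exact ⟨y, h, hR.trans e⟩
    · exact ⟨_, (Affine.nonsingular_neg ..).mpr h, by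
        rw [← Affine.Point.neg_some h, neg_nsmul, hR, e, neg_neg]⟩

/-- Multiplication by a nonzero integer is surjective. -/
theorem exists_nsmul_eq {n : ℕ} (hn : n ≠ 0) (Q : W.Point) : ∃ P : W.Point, n • P = Q := by
  rcases Q with _ | ⟨c, d, hQ⟩
  · exact ⟨0, nsmul_zero n⟩
  · obtain ⟨hm, hd⟩ := fibrePoly_monic_natDegree W hn c
    obtain ⟨r, hr⟩ := IsAlgClosed.exists_root (fibrePoly W n c) (by
      rw [degree_eq_natDegree hm.ne_zero, hd]
      exact_mod_cast pow_ne_zero 2 hn)
    obtain ⟨y, h, e⟩ := exists_point_of_isRoot W hQ hr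
    exact ⟨_, e⟩

/-- The number of `n`-torsion points is `n²`. -/
theorem natCard_setOf_nsmul_eq_zero {n : ℕ} (hn : (n : K) ≠ 0) :
    Nat.card {P : W.Point // n • P = 0} = n ^ 2 := by
  have hn0 : n ≠ 0 := by rintro rfl; exact hn Nat.cast_zero
  set B : Set K := (fun r => (W.Φ n).eval r / (W.ΨSq n).eval r) ''
      {r | (derivative (W.Φ n) * W.ΨSq n - W.Φ n * derivative (W.ΨSq n)).IsRoot r} ∪
    {c | W.Ψ₂Sq.IsRoot c} with hB
  have hBfin : B.Finite := ((finite_setOfPred_isRoot (wronskian_Φ_ΨSq_ne_zero W hn)).image _).union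
    (finite_setOfPred_isRoot (Ψ₂Sq_ne_zero_of_isElliptic W))
  obtain ⟨c, hc⟩ := hBfin.infinite_compl.nonempty
  simp only [hB, Set.mem_compl_iff, Set.mem_union, Set.mem_image, Set.mem_ofPred_eq, not_or,
    not_exists, not_and] at hc
  obtain ⟨d, hd⟩ := exists_equation W c
  have hQ : W.Nonsingular c d := Affine.equation_iff_nonsingular.mp hd
  set Q := Affine.Point.some c d hQ with hQdef
  have hQQ : Q ≠ -Q := by
    intro h
    rw [hQdef, Affine.Point.neg_some] at h
    simp only [Affine.Point.some.injEq, true_and, Affine.negY] at h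
    apply hc.2
    rw [IsRoot, ← ΨSq_two, ← divVal_sq hd, divVal_two,
      show 2 * d + W.a₁ * c + W.a₃ = 0 by linear_combination h, zero_pow two_ne_zero]
  obtain ⟨P₀, hP₀⟩ := exists_nsmul_eq W hn0 Q
  obtain ⟨hm, hdeg⟩ := fibrePoly_monic_natDegree W hn0 c
  -- the roots are simple
  have hnd : (fibrePoly W n c).roots.Nodup := by
    refine Multiset.nodup_iff_count_le_one.mpr fun r => ?_
    rw [count_roots]
    by_contra! hlt
    obtain ⟨h, h'⟩ := (one_lt_rootMultiplicity_iff_isRoot hm.ne_zero).mp hlt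
    simp [fibrePoly, sub_eq_zero, -ΨSq_ofNat] at h' h
    obtain ⟨y, hy⟩ := exists_equation W r
    have hne : (W.ΨSq n).eval r ≠ 0 := fun h0 =>
      (eval_Φ_ne_zero_or_eval_ΨSq_ne_zero W hy n).elim
        (fun hh => hh (by rw [h, h0, mul_zero])) (fun hh => hh h0)
    refine hc.1 r ?_ (by rw [h, mul_div_assoc, div_self hne, mul_one])
    simp [h, h', -ΨSq_ofNat]
    ring
  have e1 : {P : W.Point // n • P = 0} ≃ {P : W.Point // n • P = Q} :=
    (Equiv.addLeft P₀).subtypeEquiv fun P => by simp [hP₀]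
  have hne0 : ∀ P : W.Point, n • P = Q → P.xRep 1 = 1 ∧
      P.xRep 0 ∈ (fibrePoly W n c).roots.toFinset := by
    intro P hP
    rcases P with _ | ⟨x, y, h⟩
    · rw [← Affine.Point.zero_def, nsmul_zero, hQdef] at hP
      exact absurd hP.symm (Affine.Point.some_ne_zero hQ)
    · refine ⟨by simp, ?_⟩
      rw [Multiset.mem_toFinset, mem_roots hm.ne_zero, Affine.Point.xRep_some]
      simp [fibrePoly, eval_Φ_eq_mul_of_nsmul_eq_some W hP, -ΨSq_ofNat]
  let f : {P : W.Point // n • P = Q} → (fibrePoly W n c).roots.toFinset :=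
    fun P => ⟨(P : W.Point).xRep 0, (hne0 P P.2).2⟩
  have hf : Function.Bijective f := by
    refine ⟨fun P P' he => ?_, fun r => ?_⟩
    · have hx : (P : W.Point).xRep = (P' : W.Point).xRep := by
        funext i
        fin_cases i
        · exact congrArg Subtype.val he
        · exact (hne0 P P.2).1.trans (hne0 P' P'.2).1.symm
      rcases Affine.Point.eq_or_eq_neg_of_xRep_eq_xRep hx with h | h
      · exact Subtype.ext h
      · exact absurd (by
          have := P.2
          rw [h, neg_nsmul, P'.2] at this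
          exact this.symm) hQQ
    · obtain ⟨y, h, e⟩ := exists_point_of_isRoot W hQ
        (isRoot_of_mem_roots (Multiset.mem_toFinset.mp r.2))
      exact ⟨⟨_, e⟩, Subtype.ext rfl⟩
  rw [Nat.card_congr e1, Nat.card_eq_of_bijective f hf, Nat.card_eq_finsetCard,
    Multiset.toFinset_card_of_nodup hnd, IsAlgClosed.card_roots_eq_natDegree, hdeg]

theorem natCard_torsionBy {n : ℕ} (hn : (n : K) ≠ 0) :
    Nat.card (Submodule.torsionBy ℤ W.Point n) = n ^ 2 :=
  (Nat.card_congr (Equiv.subtypeEquivRight fun _ => mem_torsionBy_natCast W)).trans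
    (natCard_setOf_nsmul_eq_zero W hn)

end Fermat.Agent.EC.Torsion
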