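import Fermat.Agent.EC.Torsion.Count
import Mathlib.GroupTheory.Exponent

/-!
# Points of exact order `n`
-/

set_option autoImplicit false

namespace Fermat.Agent.EC.Torsion

open WeierstrassCurve

variable {K : Type*} [Field K] [DecidableEq K] [IsAlgClosed K] (W : Affine K) [W.IsElliptic]

/-- There is a point of exact order `n`. -/
theorem exists_addOrderOf_eq {n : ℕ} (hn : (n : K) ≠ 0) : ∃ P : W.Point, addOrderOf P = n := by
  set G := (Submodule.torsionBy ℤ W.Point n).toAddSubgroup
  have : Finite G := finite_torsionBy W hn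
  have hkill : ∀ g : G, n • g = 0 := fun g => Subtype.ext ((mem_torsionBy_natCast W).mp g.2)
  obtain ⟨P, hP⟩ := AddMonoid.exists_addOrderOf_eq_exponent
    (AddMonoid.ExponentExists.of_finite (G := G))
  refine ⟨P, (AddSubgroup.addOrderOf_coe P).trans (hP.trans ?_)⟩
  obtain ⟨c, hc⟩ := AddMonoid.exponent_dvd_of_forall_nsmul_eq_zero hkill
  have he : (AddMonoid.exponent G : K) ≠ 0 := fun h => hn (by rw [hc, Nat.cast_mul, h, zero_mul])
  have : Finite {Q : W.Point // AddMonoid.exponent G • Q = 0} :=
    (finite_setOf_nsmul_eq_zero W he).to_subtype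
  have hle := Nat.card_le_card_of_injective (fun g : G =>
    (⟨g, congrArg Subtype.val (AddMonoid.exponent_nsmul_eq_zero g)⟩ :
      {Q : W.Point // AddMonoid.exponent G • Q = 0})) fun a b h => Subtype.ext (congrArg Subtype.val h :)
  rw [natCard_setOf_nsmul_eq_zero W he, show Nat.card G = n ^ 2 from natCard_torsionBy W hn,
    Nat.pow_le_pow_iff_left two_ne_zero] at hle
  exact le_antisymm (Nat.le_of_dvd (Nat.pos_of_ne_zero fun h => hn (by rw [h, Nat.cast_zero])) ⟨c, hc⟩) hle

end Fermat.Agent.EC.Torsion
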