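import Fermat.Agent.EC.Torsion.Generic

/-!
# The multiples of a point at which the first division polynomials do not vanish
-/

set_option autoImplicit false

namespace Fermat.Agent.EC.Torsion

open WeierstrassCurve Polynomial

variable {K : Type*} [Field K]

/-- The predicted `x`-coordinate of `k • (x, y)`. -/
noncomputable def xMul (W : Affine K) (x y : K) (k : ℤ) : K :=
  x - divVal W x y (k + 1) * divVal W x y (k - 1) / divVal W x y k ^ 2

lemma xMul_one (W : Affine K) (x y : K) : xMul W x y 1 = x := by
  simp [xMul, divVal_zero]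

variable [DecidableEq K] {W : Affine K} [W.IsElliptic]

lemma symForm_eq {A Q : W.Point} {xa xp xs xd : K} {ya yp ys yd : K}
    {ha : W.Nonsingular xa ya} {hp : W.Nonsingular xp yp}
    {hs : W.Nonsingular xs ys} {hd : W.Nonsingular xd yd}
    (eA : A = .some xa ya ha) (eQ : Q = .some xp yp hp)
    (eS : A + Q = .some xs ys hs) (eD : A - Q = .some xd yd hd) :
    (xs + xd) * (xa - xp) ^ 2 = asub W ![xa * xp, xa + xp, 1] 1 ∧
      xs * xd * (xa - xp) ^ 2 = asub W ![xa * xp, xa + xp, 1] 0 := by
  obtain ⟨c, -, hc⟩ := exists_asub_sym2x W A Q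
  rw [eS, eD, eA, eQ, Affine.Point.sym2x_some_some, Affine.Point.sym2x_some_some] at hc
  have c2 := congrFun hc 2
  simp [asub] at c2
  rw [hc]
  constructor <;> simp <;> rw [← c2] <;> ring

/-- The symmetric form `(z - x(A+Q)) (z - x(A-Q)) (x(A) - x(Q)) ^ 2`. -/
lemma symForm_product {A Q : W.Point} {xa xp xs xd : K} {ya yp ys yd : K}
    {ha : W.Nonsingular xa ya} {hp : W.Nonsingular xp yp}
    {hs : W.Nonsingular xs ys} {hd : W.Nonsingular xd yd}
    (eA : A = .some xa ya ha) (eQ : Q = .some xp yp hp)
    (eS : A + Q = .some xs ys hs) (eD : A - Q = .some xd yd hd) (z : K) :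
    (z - xs) * (z - xd) * (xa - xp) ^ 2 =
      z ^ 2 * xa ^ 2 + z ^ 2 * xp ^ 2 + xa ^ 2 * xp ^ 2 - 2 * z * xa * xp * (z + xa + xp)
        - W.b₂ * z * xa * xp - W.b₄ * (z * xa + z * xp + xa * xp) - W.b₆ * (z + xa + xp)
        - W.b₈ := by
  obtain ⟨h1, h0⟩ := symForm_eq eA eQ eS eD
  simp [asub] at h1 h0
  linear_combination -z * h1 + h0

omit [DecidableEq K] [W.IsElliptic] in
lemma exists_eq_some {P : W.Point} {a b c : K} {h : W.Nonsingular a b}
    (e : P = .some a b h) (hac : a = c) : ∃ y' h', P = .some c y' h' := by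
  subst hac
  exact ⟨b, h, e⟩

omit [WeierstrassCurve.IsElliptic W] in
lemma add_self_eq {x y : K} (h : W.Nonsingular x y) (h2 : divVal W x y 2 ≠ 0) :
    ∃ y' h', Affine.Point.some x y h + .some x y h = .some (xMul W x y 2) y' h' := by
  have hy : y ≠ W.negY x y := by
    intro hy
    apply h2
    rw [divVal_two]
    simp only [Affine.negY] at hy
    linear_combination hy
  rw [Affine.Point.add_self_of_Y_ne hy]
  suffices H : W.addX x x (W.slope x x y y) = xMul W x y 2 by
    exact exists_eq_some rfl H
  have := congrFun (addX_self_mul h.1 hy) 0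
  simp [asub, sym2v] at this
  rw [xMul, show (2 : ℤ) + 1 = 3 by rfl, show (2 : ℤ) - 1 = 1 by rfl, divVal_one, mul_one,
    divVal_sq h.1 2, divVal_three, ΨSq_two]
  have h22 : (WeierstrassCurve.Ψ₂Sq W).eval x = (2 * y + W.a₁ * x + W.a₃) ^ 2 := by
    rw [← ΨSq_two, ← divVal_sq h.1 2, divVal_two]
  rw [h22]
  rw [divVal_two] at h2
  rw [eq_sub_iff_add_eq, ← eq_sub_iff_add_eq', div_eq_iff (pow_ne_zero 2 h2)]
  simp [WeierstrassCurve.Ψ₂Sq] at h22
  simp [WeierstrassCurve.Ψ₃]
  linear_combination -this + x * h22

/-- Multiples of a point are given by division polynomials as long as these do not vanish. -/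
theorem zsmul_eq_some_of_divVal_ne_zero {x y : K} (h : W.Nonsingular x y) (M : ℤ)
    (hv : ∀ k, 1 ≤ k → k ≤ M + 1 → divVal W x y k ≠ 0) (n : ℤ) (hn : 1 ≤ n) (hnM : n ≤ M) :
    ∃ y' h', n • Affine.Point.some x y h = .some (xMul W x y n) y' h' := by
  have hn0 : 0 ≤ n := by omega
  lift n to ℕ using hn0
  induction n using Nat.strong_induction_on with
  | _ n ih =>
  have IH : ∀ k : ℤ, 1 ≤ k → k < n →
      ∃ y' h', k • Affine.Point.some x y h = .some (xMul W x y k) y' h' := by
    intro k hk hkn
    lift k to ℕ using (by omega)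
    exact ih k (by omega) hk (by omega)
  set P := Affine.Point.some x y h with hP
  rcases (show (n : ℤ) = 1 ∨ (n : ℤ) = 2 ∨ 3 ≤ (n : ℤ) by omega) with e | e | e
  · rw [e, one_zsmul]
    simp only [xMul_one]
    exact ⟨y, h, rfl⟩
  · rw [e, two_zsmul]
    exact add_self_eq h (hv 2 (by omega) (by omega))
  · obtain ⟨N, hN⟩ : ∃ N, (n : ℤ) = N + 1 := ⟨(n : ℤ) - 1, by ring⟩
    have hN2 : 2 ≤ N := by omega
    obtain ⟨yN, hyN, eN⟩ := IH N (by omega) (by omega)
    -- `N • P ≠ ± P`
    have hne : xMul W x y N ≠ x := by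
      intro hh
      have a1 := hv N (by omega) (by omega)
      have a2 := hv (N + 1) (by omega) (by omega)
      have a3 := hv (N - 1) (by omega) (by omega)
      rw [xMul, sub_eq_self] at hh
      simp [a1, a2, a3] at hh
    have esum : (n : ℤ) • P = N • P + P := by rw [hN, add_one_zsmul]
    rw [eN, hP, Affine.Point.add_of_X_ne hne] at esum
    rw [← hP] at esum
    set z := W.addX (xMul W x y N) x (W.slope (xMul W x y N) x yN y) with hz
    suffices H : z = xMul W x y n by
      exact exists_eq_some esum H
    clear_value z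
    -- the points `k • P` for `1 ≤ k ≤ n`
    set X : ℤ → K := fun k => if k = n then z else xMul W x y k with hXdef
    have pts : ∀ k : ℤ, 1 ≤ k → k ≤ n → ∃ y' h', k • P = .some (X k) y' h' := by
      intro k hk hkn
      rcases lt_or_eq_of_le hkn with hlt | rfl
      · simp only [hXdef, hlt.ne, if_false]
        exact IH k hk hlt
      · simp only [hXdef, if_true]
        exact exists_eq_some esum hz.symm
    -- the relation at `(a, b)`
    have rel : ∀ b : ℤ, 2 ≤ b → b + 1 ≤ n → ∀ t : K,
        (t - X (b + 1)) * (t - X (b - 1)) * (X b - x) ^ 2 =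
        t ^ 2 * X b ^ 2 + t ^ 2 * x ^ 2 + X b ^ 2 * x ^ 2 - 2 * t * X b * x * (t + X b + x)
          - W.b₂ * t * X b * x - W.b₄ * (t * X b + t * x + X b * x) - W.b₆ * (t + X b + x)
          - W.b₈ := by
      intro b hb hbn t
      obtain ⟨yb, hb1, eb⟩ := pts b (by omega) (by omega)
      obtain ⟨ys, hs1, es⟩ := pts (b + 1) (by omega) (by omega)
      obtain ⟨yd, hd1, ed⟩ := pts (b - 1) (by omega) (by omega)
      rw [add_one_zsmul] at es
      rw [sub_one_zsmul, ← sub_eq_add_neg] at ed
      exact symForm_product eb rfl es ed t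
    have v3 : X 2 = x - divVal W x y 3 / divVal W x y 2 ^ 2 := by
      simp only [hXdef, show (2 : ℤ) ≠ n by omega, if_false, xMul]
      norm_num [divVal_one]
    have hv2 := hv 2 (by omega) (by omega)
    have hw2 : divVal W x y 2 ^ 2 = (WeierstrassCurve.Ψ₂Sq W).eval x := by
      rw [divVal_sq h.1, ΨSq_two]
    rcases (show (n : ℤ) = 3 ∨ 4 ≤ (n : ℤ) by omega) with e3 | e4
    · -- `3 • P`
      have X1 : X 1 = x := by simp [hXdef, show (1 : ℤ) ≠ n by omega, xMul_one]
      have X3 : X 3 = z := by simp [hXdef, e3]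
      have r0 := rel 2 le_rfl (by omega) 0
      have r1 := rel 2 le_rfl (by omega) 1
      rw [show (2 : ℤ) + 1 = 3 by rfl, show (2 : ℤ) - 1 = 1 by rfl, X1, X3] at r0 r1
      rw [e3, xMul, show (3 : ℤ) + 1 = 4 by rfl, show (3 : ℤ) - 1 = 2 by rfl, divVal_four]
      have hv3 := hv 3 (by omega) (by omega)
      have key : (WeierstrassCurve.preΨ₄ W).eval x = -divVal W x y 2 ^ 4 +
          divVal W x y 3 * (6 * x ^ 2 + W.b₂ * x + W.b₄) := by
        rw [show divVal W x y 2 ^ 4 = (divVal W x y 2 ^ 2) ^ 2 by ring, hw2, divVal_three]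
        simp [WeierstrassCurve.preΨ₄, WeierstrassCurve.Ψ₂Sq, WeierstrassCurve.Ψ₃]
        linear_combination x ^ 2 * WeierstrassCurve.b_relation W
      rw [eq_sub_iff_add_eq, ← eq_sub_iff_add_eq', div_eq_iff (pow_ne_zero 2 hv3)]
      have hsum : (z + x) * (X 2 - x) ^ 2 = 2 * (X 2 + x) * (X 2 * x) + W.b₂ * (X 2 * x)
          + W.b₄ * (X 2 + x) + W.b₆ := by
        linear_combination r0 - r1
      rw [v3] at hsum
      field_simp at hsum
      rw [key]
      simp [WeierstrassCurve.Ψ₂Sq] at hw2
      linear_combination hsum - divVal W x y 2 ^ 4 * hw2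
    · -- the general case
      set g := (x - z) * divVal W x y n ^ 2 / divVal W x y N with hg
      set w : ℤ → K := fun k => if k = n + 1 then g else divVal W x y k with hwdef
      have wle : ∀ k : ℤ, k ≤ n → w k = divVal W x y k := fun k hk => by
        simp [hwdef, show k ≠ (n : ℤ) + 1 by omega]
      have hwX : ∀ k : ℤ, 1 ≤ k → k ≤ n → X k = x - w (k + 1) * w (k - 1) / w k ^ 2 := by
        intro k hk hkn
        rcases lt_or_eq_of_le hkn with hlt | rfl
        · rw [wle k (by omega), wle (k + 1) (by omega), wle (k - 1) (by omega)]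
          simp [hXdef, hlt.ne, xMul]
        · rw [wle _ le_rfl, wle _ (by omega : (n : ℤ) - 1 ≤ n)]
          simp only [hwdef, hXdef, if_true]
          rw [hg, show (n : ℤ) - 1 = N by omega]
          have a1 := hv N (by omega) (by omega)
          have a2 := hv n (by omega) (by omega)
          field_simp
          ring
      have wne : ∀ k : ℤ, 1 ≤ k → k ≤ n → w k ≠ 0 := fun k hk hkn => by
        rw [wle k hkn]
        exact hv k hk (by omega)
      have D := sub_eq_of_symm x w X n (by rw [wle 0 (by omega), divVal_zero])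
        (by rw [wle 1 (by omega), divVal_one]) wne hwX
        (fun m k hk hkm hmn => by
          rw [rel k hk (by omega) (X m), rel m (by omega) hmn (X k)]
          ring)
        (fun m hm hmn => by
          rw [rel m hm hmn x, wle 2 (by omega), v3]
          have hd : (x - divVal W x y 3 / divVal W x y 2 ^ 2) * divVal W x y 2 ^ 2 =
              x * divVal W x y 2 ^ 2 - divVal W x y 3 := by
            rw [sub_mul, div_mul_cancel₀ _ (pow_ne_zero 2 hv2)]
          rw [sub_mul _ (X m), hd, hw2, divVal_three]
          simp [WeierstrassCurve.Ψ₂Sq, WeierstrassCurve.Ψ₃]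
          ring)
      suffices hgv : g = divVal W x y (n + 1) by
        rw [xMul, show (n : ℤ) - 1 = N by omega, ← hgv, hg]
        have a1 := hv N (by omega) (by omega)
        have a2 := hv n (by omega) (by omega)
        field_simp
        ring
      have gw : g = w (n + 1) := by simp [hwdef]
      obtain ⟨m, hm | hm⟩ := Int.even_or_odd' ((n : ℤ) + 1)
      · have d := D (m - 1) (by omega) (m + 1) (by omega) (by omega)
        rw [hwX (m + 1) (by omega) (by omega), hwX (m - 1) (by omega) (by omega),
          show m + 1 + (m - 1) = 2 * m by ring, show m + 1 - (m - 1) = 2 by ring,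
          show m + 1 + 1 = m + 2 by ring, show m + 1 - 1 = m by ring,
          show m - 1 + 1 = m by ring, show m - 1 - 1 = m - 2 by ring, ← hm, ← gw,
          wle (m + 2) (by omega), wle m (by omega), wle (m + 1) (by omega),
          wle (m - 1) (by omega), wle (m - 2) (by omega), wle 2 (by omega)] at d
        have a1 := hv (m + 1) (by omega) (by omega)
        have a2 := hv (m - 1) (by omega) (by omega)
        rw [hm]
        apply mul_right_cancel₀ hv2
        rw [divVal_even]
        field_simp at d
        linear_combination d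
      · have d := D m (by omega) (m + 1) (by omega) (by omega)
        rw [hwX (m + 1) (by omega) (by omega), hwX m (by omega) (by omega),
          show m + 1 + m = 2 * m + 1 by ring, show m + 1 - m = 1 by ring,
          show m + 1 + 1 = m + 2 by ring, show m + 1 - 1 = m by ring,
          ← hm, ← gw,
          wle (m + 2) (by omega), wle m (by omega), wle (m + 1) (by omega),
          wle (m - 1) (by omega), wle 1 (by omega), divVal_one] at d
        have a1 := hv (m + 1) (by omega) (by omega)
        have a2 := hv m (by omega) (by omega)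
        rw [hm, divVal_odd]
        field_simp at d
        linear_combination d

end Fermat.Agent.EC.Torsion
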